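/-
S28 [L.UP] (helper388): the "unique common root" lemma (pure field theory).
-/
import Mathlib

set_option autoImplicit false

noncomputable section

open Polynomial

namespace Fermat.Agent.S28.H388

/-- If `y₀` is a common root of `f, g ∈ F[X]` and, after a field embedding `ι`, `f` factors as
`(X - ι y₀) * ∏ (X - r c)` where no `r c` is a root of `g`, then `y₀ ∈ F`. -/
theorem mem_range_of_unique_common_root {F L L' : Type*} [Field F] [Field L] [Field L']
    [Algebra F L] (ι : L →+* L') (y₀ : L) (f g : Polynomial F)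
    (hf : Polynomial.aeval y₀ f = 0) (hg : Polynomial.aeval y₀ g = 0)
    {σ : Type*} (S : Finset σ) (r : σ → L')
    (hfac : f.map (ι.comp (algebraMap F L)) =
      (X - Polynomial.C (ι y₀)) * ∏ c ∈ S, (X - Polynomial.C (r c)))
    (hr : ∀ c ∈ S, (g.map (ι.comp (algebraMap F L))).eval (r c) ≠ 0) :
    y₀ ∈ (algebraMap F L).range := by
  have hf0 : f ≠ 0 := by
    rintro rfl
    rw [Polynomial.map_zero] at hfac
    have h1 : (X - Polynomial.C (ι y₀)) * ∏ c ∈ S, (X - Polynomial.C (r c)) ≠ 0 :=
      mul_ne_zero (Polynomial.X_sub_C_ne_zero _)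
        (Finset.prod_ne_zero_iff.2 fun c _ => Polynomial.X_sub_C_ne_zero _)
    exact h1 hfac.symm
  have hint : IsIntegral F y₀ := by
    refine ⟨f * Polynomial.C (f.leadingCoeff)⁻¹, Polynomial.monic_mul_leadingCoeff_inv hf0, ?_⟩
    rw [← Polynomial.aeval_def, map_mul, hf, zero_mul]
  set mp := minpoly F y₀ with hmp
  set φ : F →+* L' := ι.comp (algebraMap F L) with hφ
  have hdf : mp.map φ ∣ f.map φ := Polynomial.map_dvd φ (minpoly.dvd F y₀ hf)
  have hdg : mp.map φ ∣ g.map φ := Polynomial.map_dvd φ (minpoly.dvd F y₀ hg)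
  have hcop : IsCoprime (mp.map φ) (∏ c ∈ S, (X - Polynomial.C (r c))) := by
    refine IsCoprime.prod_right fun c hc => ?_
    have h1 : IsCoprime (X - Polynomial.C (r c)) (g.map φ) := by
      rw [(Polynomial.irreducible_X_sub_C (r c)).coprime_iff_not_dvd, Polynomial.dvd_iff_isRoot]
      exact hr c hc
    exact (h1.of_isCoprime_of_dvd_right hdg).symm
  rw [hfac] at hdf
  have hdvd : mp.map φ ∣ X - Polynomial.C (ι y₀) := hcop.dvd_of_dvd_mul_right hdf
  have hdeg : (mp.map φ).natDegree ≤ 1 := by
    have := Polynomial.natDegree_le_of_dvd hdvd (Polynomial.X_sub_C_ne_zero _)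
    rwa [Polynomial.natDegree_X_sub_C] at this
  rw [Polynomial.natDegree_map] at hdeg
  have hpos : 0 < mp.natDegree := minpoly.natDegree_pos hint
  have h1 : mp.natDegree = 1 := le_antisymm hdeg hpos
  exact minpoly.natDegree_eq_one_iff.1 h1

end Fermat.Agent.S28.H388
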