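/-
S28 [L.UP] (helper388): twists of Laurent series by a unit, substitution `q ↦ ζ t^e`,
and the basic facts about the `j`-series under these substitutions.
-/
import Mathlib
import Fermat.Prelude.Def_ModularCurve_X0ModL

set_option autoImplicit false

noncomputable section

open HahnSeries ModularCurve Polynomial

namespace Fermat.Agent.S28.H388

section Twist

variable {K : Type*} [Field K]

/-- Twist of a Laurent series by a unit: `∑ aₙ tⁿ ↦ ∑ aₙ ζⁿ tⁿ`. -/
def twistFun (ζ : Kˣ) (f : LaurentSeries K) : LaurentSeries K where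
  coeff n := ((ζ ^ n : Kˣ) : K) * f.coeff n
  isPWO_support' := f.isPWO_support.mono fun n hn => by
    rw [Function.mem_support] at hn
    rw [HahnSeries.mem_support]
    intro h
    exact hn (by rw [h, mul_zero])

theorem twistFun_coeff (ζ : Kˣ) (f : LaurentSeries K) (n : ℤ) :
    (twistFun ζ f).coeff n = ((ζ ^ n : Kˣ) : K) * f.coeff n := rfl

theorem twistFun_support (ζ : Kˣ) (f : LaurentSeries K) :
    (twistFun ζ f).support = f.support := by
  ext n
  rw [HahnSeries.mem_support, HahnSeries.mem_support, twistFun_coeff]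
  exact (Units.mul_right_eq_zero _).not

/-- The twist `t ↦ ζ t` as a ring endomorphism of `K((t))`. -/
def twist (ζ : Kˣ) : LaurentSeries K →+* LaurentSeries K where
  toFun := twistFun ζ
  map_zero' := by ext n; simp [twistFun_coeff]
  map_one' := by
    ext n
    rw [twistFun_coeff, HahnSeries.coeff_one]
    split_ifs with h
    · subst h; simp
    · simp
  map_add' x y := by ext n; simp [twistFun_coeff, mul_add]
  map_mul' x y := by
    ext n
    rw [twistFun_coeff, HahnSeries.coeff_mul, HahnSeries.coeff_mul, Finset.mul_sum]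
    refine Finset.sum_congr ?_ fun ij hij => ?_
    · ext ij
      rw [Finset.mem_antidiagonal, Finset.mem_antidiagonal, twistFun_support, twistFun_support]
    · rw [Finset.mem_antidiagonal] at hij
      rw [twistFun_coeff, twistFun_coeff, ← hij.2.2, zpow_add, Units.val_mul]
      ring

@[simp]
theorem twist_coeff (ζ : Kˣ) (f : LaurentSeries K) (n : ℤ) :
    (twist ζ f).coeff n = ((ζ ^ n : Kˣ) : K) * f.coeff n := rfl

theorem twist_one (f : LaurentSeries K) : twist (1 : Kˣ) f = f := by
  ext n; simp

theorem twist_qExpand (ζ : Kˣ) (p : ℕ) [NeZero p] (f : LaurentSeries K) :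
    twist ζ (qExpand K p f) = qExpand K p (twist (ζ ^ p) f) := by
  ext n
  by_cases hn : (p : ℤ) ∣ n
  · obtain ⟨m, rfl⟩ := hn
    rw [twist_coeff, qExpand_coeff_mul, qExpand_coeff_mul, twist_coeff]
    congr 2
    rw [← zpow_natCast, ← zpow_mul]
  · rw [twist_coeff, qExpand_coeff_of_not_dvd p _ hn, qExpand_coeff_of_not_dvd p _ hn, mul_zero]

theorem twist_qExpand_of_pow_eq_one (ζ : Kˣ) (p : ℕ) [NeZero p] (hζ : ζ ^ p = 1)
    (f : LaurentSeries K) : twist ζ (qExpand K p f) = qExpand K p f := by
  rw [twist_qExpand, hζ, twist_one]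

end Twist

end Fermat.Agent.S28.H388
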