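/-
S28 [L.UP] (helper388): root list of the modular polynomial `Φ_p(x; Y)` at
`x = j(t^{mp})` inside `K((t))`, `K` a field containing a primitive `p`-th root of unity.
-/
import Mathlib
import Fermat.Prelude.Def_ModularCurve_X0ModL
import Fermat.Agent.S28.H388.Twist

set_option autoImplicit false

noncomputable section

open ModularCurve Polynomial

namespace Fermat.Agent.S28.H388

/-- Evaluation `ℤ[Y] → A`, `Y ↦ y` (same term as the captain's `evalAt`). -/
abbrev evalZ {A : Type*} [CommRing A] (y : A) : Polynomial ℤ →+* A :=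
  (Polynomial.aeval (R := ℤ) y).toRingHom

theorem evalZ_X {A : Type*} [CommRing A] (y : A) : evalZ y Polynomial.X = y := by
  simp [evalZ]

theorem comp_evalZ {A B : Type*} [CommRing A] [CommRing B] (ψ : A →+* B) (y : A) :
    ψ.comp (evalZ y) = evalZ (ψ y) := by
  refine Polynomial.ringHom_ext' (Subsingleton.elim _ _) ?_
  simp [evalZ]

/-- Transport of a two-variable polynomial relation along a ring homomorphism. -/
theorem eval₂_evalZ_map {A B : Type*} [CommRing A] [CommRing B] (ψ : A →+* B)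
    (Φ : Polynomial (Polynomial ℤ)) {a b : A} (h : Φ.eval₂ (evalZ a) b = 0) :
    Φ.eval₂ (evalZ (ψ a)) (ψ b) = 0 := by
  have := congrArg ψ h
  rwa [Polynomial.hom_eval₂, comp_evalZ, map_zero] at this

/-- A monic polynomial with `natDegree`-many distinct roots is the product of the
corresponding linear factors. -/
theorem eq_prod_X_sub_C_of_card_eq {L : Type*} [Field L] (P : Polynomial L) (hP : P.Monic)
    (S : Finset L) (hS : ∀ s ∈ S, P.eval s = 0) (hcard : S.card = P.natDegree) :
    P = ∏ s ∈ S, (X - C s) := by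
  classical
  have hle : S.val ≤ P.roots := by
    rw [Finset.val_le_iff_val_subset]
    intro s hs
    rw [Polynomial.mem_roots hP.ne_zero]
    exact hS s hs
  have hdvd : (S.val.map fun a => X - C a).prod ∣ P :=
    (Multiset.prod_X_sub_C_dvd_iff_le_roots hP.ne_zero S.val).2 hle
  have hQ : (∏ s ∈ S, (X - C s) : Polynomial L) = (S.val.map fun a => X - C a).prod := rfl
  rw [hQ]
  refine (Polynomial.eq_of_monic_of_dvd_of_natDegree_le
    (Polynomial.monic_multisetProd_X_sub_C _) hP hdvd ?_)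
  rw [Polynomial.natDegree_multiset_prod_X_sub_C_eq_card, ← hcard]
  rfl

section RootList

variable {K : Type*} [Field K]

theorem coeff_neg_qExpand_twist_jq (m : ℕ) [NeZero m] (ξ : Kˣ) :
    (qExpand K m (twist ξ (jqModC K))).coeff (-(m : ℤ)) = ((ξ⁻¹ : Kˣ) : K) := by
  have h : (-(m : ℤ)) = (m : ℤ) * (-1) := by ring
  rw [h, qExpand_coeff_mul, twist_coeff, coeff_jqModC_neg_one, mul_one, zpow_neg_one]

theorem coeff_qExpand_twist_jq_of_lt (m : ℕ) [NeZero m] (ξ : Kˣ) {n : ℤ} (hn : n < -(m : ℤ)) :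
    (qExpand K m (twist ξ (jqModC K))).coeff n = 0 := by
  by_cases hd : (m : ℤ) ∣ n
  · obtain ⟨c, rfl⟩ := hd
    rw [qExpand_coeff_mul, twist_coeff]
    have hm : (0 : ℤ) < m := by exact_mod_cast Nat.pos_of_ne_zero (NeZero.ne m)
    have hc : c < -1 := by
      by_contra hc
      rw [not_lt] at hc
      have : (m : ℤ) * (-1) ≤ m * c := mul_le_mul_of_nonneg_left hc hm.le
      linarith
    rw [coeff_jqModC_of_lt K hc, mul_zero]
  · exact qExpand_coeff_of_not_dvd m _ hd

theorem qExpand_twist_jq_ne_zero (m : ℕ) [NeZero m] (ξ : Kˣ) :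
    qExpand K m (twist ξ (jqModC K)) ≠ 0 := by
  intro h
  have := coeff_neg_qExpand_twist_jq (K := K) m ξ
  rw [h, HahnSeries.coeff_zero] at this
  exact (ξ⁻¹).ne_zero this.symm

variable (p : ℕ) [NeZero p] (Φ : Polynomial (Polynomial ℤ))

/-- The root `j(t^{mpp})` of `Φ_p(j(t^{mp}); Y)`. -/
theorem root_infty (eval_jp : Φ.eval₂ (evalZ (jqModC ℤ)) (qExpand ℤ p (jqModC ℤ)) = 0)
    (m : ℕ) [NeZero m] :
    (Φ.map (evalZ (qExpand K (m * p) (jqModC K)))).eval (qExpand K (m * p * p) (jqModC K)) = 0 := by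
  rw [Polynomial.eval_map]
  have h := eval₂_evalZ_map
    ((qExpand K (m * p)).comp (coeffMap (Int.castRingHom K))) Φ eval_jp
  simp only [RingHom.comp_apply, coeffMap_jqModC, coeffMap_qExpand, qExpand_qExpand] at h
  exact h

/-- The roots `j(ζ t^{m})`, `ζ^p = 1`, of `Φ_p(j(t^{mp}); Y)`. -/
theorem root_twist (eval_j : Φ.eval₂ (evalZ (qExpand ℤ p (jqModC ℤ))) (jqModC ℤ) = 0)
    (m : ℕ) [NeZero m] (ξ : Kˣ) (hξ : ξ ^ p = 1) :
    (Φ.map (evalZ (qExpand K (m * p) (jqModC K)))).eval
      (qExpand K m (twist ξ (jqModC K))) = 0 := by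
  rw [Polynomial.eval_map]
  have h := eval₂_evalZ_map
    ((qExpand K m).comp ((twist ξ).comp (coeffMap (Int.castRingHom K)))) Φ eval_j
  simp only [RingHom.comp_apply, coeffMap_jqModC, coeffMap_qExpand,
    twist_qExpand_of_pow_eq_one ξ p hξ, qExpand_qExpand] at h
  exact h

theorem coeff_neg_qExpand_mul_jq_of_one_lt {a : ℕ} [NeZero a] (m : ℕ) [NeZero m]
    (h : ¬ a ∣ m) : (qExpand K a (jqModC K)).coeff (-(m : ℤ)) = 0 := by
  refine qExpand_coeff_of_not_dvd a _ ?_
  rw [dvd_neg, Int.natCast_dvd_natCast]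
  exact h

/-- **Root list.** For a primitive `p`-th root of unity `ζ`, the modular polynomial
`Φ_p(j(t^{mp}); Y)` is the product of the `p + 1` linear factors with roots
`j(t^{mpp})` and `j(ζ^c t^m)`, `0 ≤ c < p`. -/
theorem map_eq_prod (hp1 : 1 < p) (monic : Φ.Monic) (deg : Φ.natDegree = p + 1)
    (eval_jp : Φ.eval₂ (evalZ (jqModC ℤ)) (qExpand ℤ p (jqModC ℤ)) = 0)
    (eval_j : Φ.eval₂ (evalZ (qExpand ℤ p (jqModC ℤ))) (jqModC ℤ) = 0)
    (ζ : Kˣ) (hζ : IsPrimitiveRoot ζ p) (m : ℕ) [NeZero m] :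
    Φ.map (evalZ (qExpand K (m * p) (jqModC K))) =
      (X - Polynomial.C (qExpand K (m * p * p) (jqModC K))) *
        ∏ c ∈ Finset.range p, (X - Polynomial.C (qExpand K m (twist (ζ ^ c) (jqModC K)))) := by
  classical
  set r : ℕ → LaurentSeries K := fun c => qExpand K m (twist (ζ ^ c) (jqModC K)) with hr
  set rinf : LaurentSeries K := qExpand K (m * p * p) (jqModC K) with hrinf
  have hinj : Set.InjOn r (Finset.range p : Set ℕ) := by
    intro c hc c' hc' hcc'
    have h1 := congrArg (fun f : LaurentSeries K => f.coeff (-(m : ℤ))) hcc'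
    simp only [hr, coeff_neg_qExpand_twist_jq] at h1
    have h2 : (ζ ^ c)⁻¹ = (ζ ^ c')⁻¹ := Units.ext h1
    rw [inv_inj] at h2
    exact hζ.pow_inj (Finset.mem_range.1 hc) (Finset.mem_range.1 hc') h2
  have hmpp : ¬ m * p * p ∣ m := by
    have hm : 0 < m := Nat.pos_of_ne_zero (NeZero.ne m)
    refine Nat.not_dvd_of_pos_of_lt hm ?_
    calc m = m * 1 * 1 := by ring
      _ < m * p * p := by
        have : m * 1 < m * p := Nat.mul_lt_mul_of_pos_left hp1 hm
        have h3 : m * 1 * 1 < m * p * 1 := by simpa using this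
        exact h3.trans_le (Nat.mul_le_mul_left _ hp1.le)
  have hnotin : rinf ∉ (Finset.range p).image r := by
    intro h
    obtain ⟨c, -, hc⟩ := Finset.mem_image.1 h
    have h1 := congrArg (fun f : LaurentSeries K => f.coeff (-(m : ℤ))) hc
    simp only [hr, hrinf, coeff_neg_qExpand_twist_jq,
      coeff_neg_qExpand_mul_jq_of_one_lt m hmpp] at h1
    exact ((ζ ^ c)⁻¹).ne_zero h1
  have hcard : (insert rinf ((Finset.range p).image r)).card
      = (Φ.map (evalZ (qExpand K (m * p) (jqModC K)))).natDegree := by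
    rw [Finset.card_insert_of_notMem hnotin, Finset.card_image_of_injOn hinj,
      Finset.card_range, monic.natDegree_map, deg]
  have hroots : ∀ s ∈ insert rinf ((Finset.range p).image r),
      (Φ.map (evalZ (qExpand K (m * p) (jqModC K)))).eval s = 0 := by
    intro s hs
    rcases Finset.mem_insert.1 hs with rfl | hs
    · exact root_infty p Φ eval_jp m
    · obtain ⟨c, -, rfl⟩ := Finset.mem_image.1 hs
      refine root_twist p Φ eval_j m (ζ ^ c) ?_
      rw [← pow_mul, mul_comm, pow_mul, hζ.pow_eq_one, one_pow]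
  rw [eq_prod_X_sub_C_of_card_eq _ (monic.map _) _ hroots hcard,
    Finset.prod_insert hnotin, Finset.prod_image hinj]

end RootList

end Fermat.Agent.S28.H388
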