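/-
S28 [L.UP] (helper388): the KEY lemma  `j(q^{pp'}) ∈ k(j(q^p), j(q^{p'}))`  for distinct
primes `p, p'` invertible in `k`, from the prime-level modular polynomials only.
-/
import Mathlib
import Fermat.Prelude.Def_ModularCurve_X0ModL
import Fermat.Agent.S28.H388.RootList
import Fermat.Agent.S28.H388.CommonRoot

set_option autoImplicit false

noncomputable section

open ModularCurve Polynomial

namespace Fermat.Agent.S28.H388

/-- The prime-level input (the same four fields as the captain's `ModPolyData p`), as a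
predicate on the polynomial `Φ`. -/
structure IsModPoly (p : ℕ) [NeZero p] (Φ : Polynomial (Polynomial ℤ)) : Prop where
  monic : Φ.Monic
  natDegree_eq : Φ.natDegree = p + 1
  eval_jp : Φ.eval₂ (evalZ (jqModC ℤ)) (qExpand ℤ p (jqModC ℤ)) = 0
  eval_j : Φ.eval₂ (evalZ (qExpand ℤ p (jqModC ℤ))) (jqModC ℤ) = 0

section Transport

variable (k : Type*) [Field k]

/-- `Φ_p(j(q^d); j(q^{dp})) = 0` over any field (indeed any ring). -/
theorem IsModPoly.eval_jp_qExpand {p : ℕ} [NeZero p] {Φ : Polynomial (Polynomial ℤ)}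
    (h : IsModPoly p Φ) (d : ℕ) [NeZero d] :
    Φ.eval₂ (evalZ (qExpand k d (jqModC k))) (qExpand k (d * p) (jqModC k)) = 0 := by
  have := eval₂_evalZ_map ((qExpand k d).comp (coeffMap (Int.castRingHom k))) Φ h.eval_jp
  simpa only [RingHom.comp_apply, coeffMap_jqModC, coeffMap_qExpand, qExpand_qExpand] using this

/-- `Φ_p(j(q^{dp}); j(q^d)) = 0` over any field (indeed any ring). -/
theorem IsModPoly.eval_j_qExpand {p : ℕ} [NeZero p] {Φ : Polynomial (Polynomial ℤ)}
    (h : IsModPoly p Φ) (d : ℕ) [NeZero d] :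
    Φ.eval₂ (evalZ (qExpand k (d * p) (jqModC k))) (qExpand k d (jqModC k)) = 0 := by
  have := eval₂_evalZ_map ((qExpand k d).comp (coeffMap (Int.castRingHom k))) Φ h.eval_j
  simpa only [RingHom.comp_apply, coeffMap_jqModC, coeffMap_qExpand, qExpand_qExpand] using this

end Transport

section Key

variable (k : Type*) [Field k]

theorem not_sq_dvd_sq_of_prime_ne {p p' : ℕ} (hp : p.Prime) (hp' : p'.Prime) (hne : p ≠ p') :
    ¬ p * p ∣ p' * p' := by
  intro h
  have h1 : p ∣ p' * p' := (dvd_mul_right p p).trans h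
  have h2 : p ∣ p' := (hp.dvd_mul.1 h1).elim id id
  exact hne ((Nat.prime_dvd_prime_iff_eq hp hp').1 h2)

/-- **KEY lemma.** -/
theorem key_mem (p p' : ℕ) [NeZero p] [NeZero p'] (hp : p.Prime) (hp' : p'.Prime)
    (hne : p ≠ p') (hpk : (p : k) ≠ 0) (hpk' : (p' : k) ≠ 0)
    {Φ Φ' : Polynomial (Polynomial ℤ)} (hΦ : IsModPoly p Φ) (hΦ' : IsModPoly p' Φ') :
    qExpand k (p * p') (jqModC k) ∈
      IntermediateField.adjoin k {qExpand k p (jqModC k), qExpand k p' (jqModC k)} := by
  classical
  haveI : NeZero (p : k) := ⟨hpk⟩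
  haveI : NeZero (p' : k) := ⟨hpk'⟩
  -- roots of unity in the algebraic closure
  obtain ⟨z, hz⟩ := HasEnoughRootsOfUnity.exists_primitiveRoot (AlgebraicClosure k) p
  obtain ⟨z', hz'⟩ := HasEnoughRootsOfUnity.exists_primitiveRoot (AlgebraicClosure k) p'
  set ζ : (AlgebraicClosure k)ˣ := (hz.isUnit (NeZero.ne p)).unit with hζdef
  set ζ' : (AlgebraicClosure k)ˣ := (hz'.isUnit (NeZero.ne p')).unit with hζ'def
  have hζ : IsPrimitiveRoot ζ p := IsPrimitiveRoot.coe_units_iff.1 (by simpa [hζdef] using hz)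
  have hζ' : IsPrimitiveRoot ζ' p' :=
    IsPrimitiveRoot.coe_units_iff.1 (by simpa [hζ'def] using hz')
  set K := AlgebraicClosure k with hK
  set E' : IntermediateField k (LaurentSeries k) :=
    IntermediateField.adjoin k {qExpand k p (jqModC k), qExpand k p' (jqModC k)} with hE'
  set a : E' := ⟨qExpand k p (jqModC k), IntermediateField.subset_adjoin k _ (by simp)⟩ with ha
  set a' : E' := ⟨qExpand k p' (jqModC k), IntermediateField.subset_adjoin k _ (by simp)⟩ with ha'
  set ι : LaurentSeries k →+* LaurentSeries K :=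
    (qExpand K (p * p')).comp (coeffMap (algebraMap k K)) with hι
  set f : Polynomial E' := Φ.map (evalZ a') with hf
  set g : Polynomial E' := Φ'.map (evalZ a) with hg
  set y₀ : LaurentSeries k := qExpand k (p * p') (jqModC k) with hy₀
  -- `y₀` is a common root
  have hfy : Polynomial.aeval y₀ f = 0 := by
    rw [Polynomial.aeval_def, hf, Polynomial.eval₂_map, comp_evalZ]
    have := hΦ.eval_jp_qExpand k p'
    rw [qExpand_congr (Nat.mul_comm p' p)] at this
    exact this
  have hgy : Polynomial.aeval y₀ g = 0 := by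
    rw [Polynomial.aeval_def, hg, Polynomial.eval₂_map, comp_evalZ]
    exact hΦ'.eval_jp_qExpand k p
  -- images of the generators
  have hιa' : (ι.comp (algebraMap E' (LaurentSeries k))) a' = qExpand K (p' * p' * p) (jqModC K) := by
    show ι (qExpand k p' (jqModC k)) = _
    rw [hι, RingHom.comp_apply, coeffMap_qExpand, coeffMap_jqModC, qExpand_qExpand]
    exact qExpand_congr (by ring) _
  have hιa : (ι.comp (algebraMap E' (LaurentSeries k))) a = qExpand K (p * p * p') (jqModC K) := by
    show ι (qExpand k p (jqModC k)) = _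
    rw [hι, RingHom.comp_apply, coeffMap_qExpand, coeffMap_jqModC, qExpand_qExpand]
    exact qExpand_congr (by ring) _
  have hιy : ι y₀ = qExpand K (p' * p' * p * p) (jqModC K) := by
    rw [hι, hy₀, RingHom.comp_apply, coeffMap_qExpand, coeffMap_jqModC, qExpand_qExpand]
    exact qExpand_congr (by ring) _
  have hιy' : ι y₀ = qExpand K (p * p * p' * p') (jqModC K) := by
    rw [hιy]
    exact qExpand_congr (by ring) _
  -- factorisations
  have hfac : f.map (ι.comp (algebraMap E' (LaurentSeries k))) =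
      (X - Polynomial.C (ι y₀)) * ∏ c ∈ Finset.range p,
        (X - Polynomial.C (qExpand K (p' * p') (twist (ζ ^ c) (jqModC K)))) := by
    rw [hf, Polynomial.map_map, comp_evalZ, hιa', hιy]
    exact map_eq_prod p Φ hp.one_lt hΦ.monic hΦ.natDegree_eq hΦ.eval_jp hΦ.eval_j ζ hζ (p' * p')
  have hfac' : g.map (ι.comp (algebraMap E' (LaurentSeries k))) =
      (X - Polynomial.C (ι y₀)) * ∏ c ∈ Finset.range p',
        (X - Polynomial.C (qExpand K (p * p) (twist (ζ' ^ c) (jqModC K)))) := by
    rw [hg, Polynomial.map_map, comp_evalZ, hιa, hιy']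
    exact map_eq_prod p' Φ' hp'.one_lt hΦ'.monic hΦ'.natDegree_eq hΦ'.eval_jp hΦ'.eval_j ζ' hζ'
      (p * p)
  have hmem := mem_range_of_unique_common_root ι y₀ f g hfy hgy (Finset.range p)
    (fun c => qExpand K (p' * p') (twist (ζ ^ c) (jqModC K))) hfac ?_
  · obtain ⟨x, hx⟩ := hmem
    rw [← hx]
    exact x.2
  · intro c _
    rw [hfac', Polynomial.eval_mul, Polynomial.eval_sub, Polynomial.eval_X, Polynomial.eval_C,
      Polynomial.eval_prod]
    have hcoef : (qExpand K (p' * p') (twist (ζ ^ c) (jqModC K))).coeff (-((p' * p' : ℕ) : ℤ))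
        ≠ 0 := by
      rw [coeff_neg_qExpand_twist_jq]
      exact ((ζ ^ c)⁻¹).ne_zero
    refine mul_ne_zero ?_ (Finset.prod_ne_zero_iff.2 fun c' _ => ?_)
    · rw [sub_ne_zero]
      intro h
      apply hcoef
      rw [h, hιy']
      refine coeff_neg_qExpand_mul_jq_of_one_lt (p' * p') ?_
      intro hd
      exact not_sq_dvd_sq_of_prime_ne hp hp' hne
        ((Dvd.intro _ (by ring : p * p * (p' * p') = p * p * p' * p')).trans hd)
    · rw [Polynomial.eval_sub, Polynomial.eval_X, Polynomial.eval_C, sub_ne_zero]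
      intro h
      apply hcoef
      rw [h]
      refine qExpand_coeff_of_not_dvd (p * p) _ ?_
      rw [dvd_neg, Int.natCast_dvd_natCast]
      exact not_sq_dvd_sq_of_prime_ne hp hp' hne

end Key

end Fermat.Agent.S28.H388
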