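/-
S28 [L.UP] (helper388): generation.  `k(j(q^d) : d ∣ N)` is generated over `k` by `j` and the
`j(q^{r^i})` for the prime powers `r^i ∣ N`; tower step `E_{Mp} = E_M(j(q^{p^{a+1}}))`.
-/
import Mathlib
import Fermat.Prelude.Def_ModularCurve_X0ModL
import Fermat.Agent.S28.H388.Key

set_option autoImplicit false

noncomputable section

open ModularCurve Polynomial IntermediateField

namespace Fermat.Agent.S28.H388

variable (k : Type*) [Field k]

/-- `j(q^d)` as a total function of `d` (junk value `0` at `d = 0`). -/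
def Jt (d : ℕ) : LaurentSeries k :=
  if h : d = 0 then 0 else @qExpand k _ d ⟨h⟩ (jqModC k)

theorem Jt_eq (d : ℕ) [NeZero d] : Jt k d = qExpand k d (jqModC k) := by
  rw [Jt, dif_neg (NeZero.ne d)]

theorem Jt_one : Jt k 1 = jqModC k := by
  rw [Jt_eq, qExpand_one_apply]

/-- Hypothesis bundle: every prime divisor of `N` is invertible in `k` and has a modular
polynomial. -/
def HasModPolys (N : ℕ) : Prop :=
  ∀ r : ℕ, ∀ hr : r.Prime, r ∣ N → (r : k) ≠ 0 ∧ ∃ Φ, @IsModPoly r ⟨hr.ne_zero⟩ Φ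

variable {k} in
theorem HasModPolys.of_dvd {M N : ℕ} (h : HasModPolys k N) (hMN : M ∣ N) : HasModPolys k M :=
  fun r hr hrM => h r hr (hrM.trans hMN)

/-- (KEY-d): `j(q^{dpp'}) ∈ k(j(q^{dp}), j(q^{dp'}))`. -/
theorem key_mem_qExpand (d p p' : ℕ) [NeZero d] [NeZero p] [NeZero p'] (hp : p.Prime)
    (hp' : p'.Prime) (hne : p ≠ p') (hpk : (p : k) ≠ 0) (hpk' : (p' : k) ≠ 0)
    {Φ Φ' : Polynomial (Polynomial ℤ)} (hΦ : IsModPoly p Φ) (hΦ' : IsModPoly p' Φ') :
    qExpand k (d * (p * p')) (jqModC k) ∈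
      IntermediateField.adjoin k
        {qExpand k (d * p) (jqModC k), qExpand k (d * p') (jqModC k)} := by
  have h := key_mem k p p' hp hp' hne hpk hpk' hΦ hΦ'
  have h2 : qExpandAlgHomC k d (qExpand k (p * p') (jqModC k)) ∈
      (IntermediateField.adjoin k
        {qExpand k p (jqModC k), qExpand k p' (jqModC k)}).map (qExpandAlgHomC k d) :=
    ⟨_, h, rfl⟩
  rw [IntermediateField.adjoin_map, Set.image_pair] at h2
  simpa only [qExpandAlgHomC_apply, qExpand_qExpand] using h2

theorem key_mem_Jt (d p p' : ℕ) (hd : d ≠ 0) (hp : p.Prime)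
    (hp' : p'.Prime) (hne : p ≠ p') (hpk : (p : k) ≠ 0) (hpk' : (p' : k) ≠ 0)
    {Φ Φ' : Polynomial (Polynomial ℤ)} (hΦ : @IsModPoly p ⟨hp.ne_zero⟩ Φ)
    (hΦ' : @IsModPoly p' ⟨hp'.ne_zero⟩ Φ') :
    Jt k (d * (p * p')) ∈ IntermediateField.adjoin k {Jt k (d * p), Jt k (d * p')} := by
  have : NeZero d := ⟨hd⟩
  have : NeZero p := ⟨hp.ne_zero⟩
  have : NeZero p' := ⟨hp'.ne_zero⟩
  rw [Jt_eq, Jt_eq, Jt_eq]
  exact key_mem_qExpand k d p p' hp hp' hne hpk hpk' hΦ hΦ'

/-- If an intermediate field contains `j` and `j(q^{r^i})` for all prime powers `r^i ∣ N`, then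
it contains `j(q^d)` for all `d ∣ N`. -/
theorem Jt_mem_of_primePow (N : ℕ) (hN : N ≠ 0) (H : HasModPolys k N)
    (R : IntermediateField k (LaurentSeries k)) (h1 : Jt k 1 ∈ R)
    (hR : ∀ q : ℕ, q ∣ N → IsPrimePow q → Jt k q ∈ R) :
    ∀ d : ℕ, d ∣ N → Jt k d ∈ R := by
  intro d
  induction d using Nat.strong_induction_on with
  | _ d ih =>
    intro hdN
    by_cases hd1 : d = 1
    · rw [hd1]; exact h1
    by_cases hpp : IsPrimePow d
    · exact hR d hdN hpp
    -- two distinct prime factors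
    obtain ⟨p, hp, hpd⟩ := Nat.exists_prime_and_dvd hd1
    have hex : ∃ p' : ℕ, p'.Prime ∧ p' ∣ d ∧ p' ≠ p := by
      by_contra hcon
      apply hpp
      rw [isPrimePow_iff_unique_prime_dvd]
      refine ⟨p, ⟨hp, hpd⟩, fun q hq => ?_⟩
      by_contra hne
      exact hcon ⟨q, hq.1, hq.2, hne⟩
    obtain ⟨p', hp', hp'd, hne⟩ := hex
    have hcop : Nat.Coprime p p' := (Nat.coprime_primes hp hp').2 (Ne.symm hne)
    obtain ⟨e, rfl⟩ : p * p' ∣ d := hcop.mul_dvd_of_dvd_of_dvd hpd hp'd
    have hd0 : p * p' * e ≠ 0 := fun h => hN (by rw [h, zero_dvd_iff] at hdN; exact hdN)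
    have he0 : e ≠ 0 := fun h => hd0 (by rw [h, mul_zero])
    have hepos : 0 < e := Nat.pos_of_ne_zero he0
    obtain ⟨hpk, Φ, hΦ⟩ := H p hp (hpd.trans hdN)
    obtain ⟨hpk', Φ', hΦ'⟩ := H p' hp' (hp'd.trans hdN)
    have hkey := key_mem_Jt k e p p' he0 hp hp' (Ne.symm hne) hpk hpk' hΦ hΦ'
    have hlt1 : e * p < p * p' * e := by
      have : e * p * 1 < e * p * p' := Nat.mul_lt_mul_of_pos_left hp'.one_lt
        (Nat.mul_pos hepos hp.pos)
      calc e * p = e * p * 1 := (mul_one _).symm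
        _ < e * p * p' := this
        _ = p * p' * e := by ring
    have hlt2 : e * p' < p * p' * e := by
      have : e * p' * 1 < e * p' * p := Nat.mul_lt_mul_of_pos_left hp.one_lt
        (Nat.mul_pos hepos hp'.pos)
      calc e * p' = e * p' * 1 := (mul_one _).symm
        _ < e * p' * p := this
        _ = p * p' * e := by ring
    have hdv1 : e * p ∣ N := (Dvd.intro p' (by ring : e * p * p' = p * p' * e)).trans hdN
    have hdv2 : e * p' ∣ N := (Dvd.intro p (by ring : e * p' * p = p * p' * e)).trans hdN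
    have hm1 := ih (e * p) hlt1 hdv1
    have hm2 := ih (e * p') hlt2 hdv2
    have hle : IntermediateField.adjoin k {Jt k (e * p), Jt k (e * p')} ≤ R := by
      rw [IntermediateField.adjoin_le_iff]
      rintro x (rfl | rfl)
      · exact hm1
      · exact hm2
    rw [show p * p' * e = e * (p * p') by ring]
    exact hle hkey

/-- The field `E_N = k(j(q^d) : d ∣ N)` in terms of `Jt`. -/
theorem full_eq_adjoin_Jt (N : ℕ) (hN : N ≠ 0) :
    modularFunctionFieldFullC k N = IntermediateField.adjoin k {x | ∃ d, d ∣ N ∧ x = Jt k d} := by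
  unfold modularFunctionFieldFullC divisorExpansionsC
  congr 1
  ext x
  constructor
  · rintro ⟨d, hd, hdN, rfl⟩
    exact ⟨d, hdN, (Jt_eq k d).symm⟩
  · rintro ⟨d, hdN, rfl⟩
    have hd0 : d ≠ 0 := fun h => hN (by rw [h, zero_dvd_iff] at hdN; exact hdN)
    exact ⟨d, ⟨hd0⟩, hdN, by rw [Jt, dif_neg hd0]⟩

theorem Jt_mem_full (N d : ℕ) (hN : N ≠ 0) (hd : d ∣ N) :
    Jt k d ∈ modularFunctionFieldFullC k N := by
  rw [full_eq_adjoin_Jt k N hN]
  exact IntermediateField.subset_adjoin k _ ⟨d, hd, rfl⟩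

theorem full_le_iff (N : ℕ) (hN : N ≠ 0) (R : IntermediateField k (LaurentSeries k)) :
    modularFunctionFieldFullC k N ≤ R ↔ ∀ d, d ∣ N → Jt k d ∈ R := by
  rw [full_eq_adjoin_Jt k N hN, IntermediateField.adjoin_le_iff]
  constructor
  · intro h d hd
    exact h ⟨d, hd, rfl⟩
  · rintro h x ⟨d, hd, rfl⟩
    exact h d hd

/-- `E_N` is generated by `j` and the `j(q^{r^i})`, `r^i ∣ N` prime powers. -/
theorem full_le_of_primePow (N : ℕ) (hN : N ≠ 0) (H : HasModPolys k N)
    (R : IntermediateField k (LaurentSeries k)) (h1 : Jt k 1 ∈ R)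
    (hR : ∀ q : ℕ, q ∣ N → IsPrimePow q → Jt k q ∈ R) :
    modularFunctionFieldFullC k N ≤ R :=
  (full_le_iff k N hN R).2 (Jt_mem_of_primePow k N hN H R h1 hR)

/-- **Tower step (generation).** `E_{Mp} = E_M ⊔ k(j(q^{p^{a+1}}))`, `p^a ∥ M`. -/
theorem full_mul_prime_eq_sup (M p : ℕ) (hM : M ≠ 0) (hp : p.Prime)
    (H : HasModPolys k (M * p)) :
    modularFunctionFieldFullC k (M * p) =
      modularFunctionFieldFullC k M ⊔
        IntermediateField.adjoin k {Jt k (p ^ (M.factorization p + 1))} := by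
  have hMp : M * p ≠ 0 := mul_ne_zero hM hp.ne_zero
  apply le_antisymm
  · refine full_le_of_primePow k (M * p) hMp H _ ?_ ?_
    · exact le_sup_left (a := modularFunctionFieldFullC k M) (Jt_mem_full k M 1 hM (one_dvd M))
    · intro q hq hqpp
      by_cases hqM : q ∣ M
      · exact le_sup_left (a := modularFunctionFieldFullC k M) (Jt_mem_full k M q hM hqM)
      · -- then `q = p ^ (a + 1)`
        obtain ⟨r, b, hr, hb, rfl⟩ := (isPrimePow_nat_iff q).1 hqpp
        have hrp : r = p := by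
          by_contra hne
          apply hqM
          have hcop : Nat.Coprime (r ^ b) p :=
            Nat.Coprime.pow_left b ((Nat.coprime_primes hr hp).2 hne)
          exact hcop.dvd_of_dvd_mul_right hq
        subst hrp
        have h1 : b ≤ (M * r).factorization r := (hr.pow_dvd_iff_le_factorization hMp).1 hq
        have h2 : ¬ b ≤ M.factorization r := fun h =>
          hqM ((hr.pow_dvd_iff_le_factorization hM).2 h)
        rw [Nat.factorization_mul hM hr.ne_zero, Finsupp.add_apply, hr.factorization_self] at h1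
        have hb' : b = M.factorization r + 1 := by omega
        rw [hb']
        exact le_sup_right (b := IntermediateField.adjoin k {Jt k (r ^ (M.factorization r + 1))})
          (IntermediateField.subset_adjoin k _ rfl)
  · have : NeZero M := ⟨hM⟩
    have : NeZero (M * p) := ⟨hMp⟩
    refine sup_le (full_degeneracyC_le k (Dvd.intro _ rfl)) ?_
    rw [IntermediateField.adjoin_le_iff]
    rintro x rfl
    refine Jt_mem_full k (M * p) _ hMp ?_
    rw [pow_succ]
    exact mul_dvd_mul_right (Nat.ordProj_dvd M p) p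

end Fermat.Agent.S28.H388
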