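/-
S28 [L.UP] (helper388): degree bounds for the tower `E_M ⊂ E_{Mp}` and the upper bound
`[E_N : k(j)] ≤ ψ(N)`.
-/
import Mathlib
import Fermat.Prelude.Def_ModularCurve_X0ModL
import Fermat.Agent.S28.H388.Gen

set_option autoImplicit false

noncomputable section

open ModularCurve Polynomial IntermediateField

namespace Fermat.Agent.S28.H388

/-- Adjoining a root of a monic polynomial of degree `n` has relative degree `≤ n` (and `> 0`). -/
theorem relfinrank_sup_adjoin_le {k L : Type*} [Field k] [Field L] [Algebra k L]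
    (A : IntermediateField k L) (x : L) (P : Polynomial A) (hP : P.Monic)
    (hx : Polynomial.aeval x P = 0) :
    0 < IntermediateField.relfinrank A (A ⊔ IntermediateField.adjoin k {x}) ∧
      IntermediateField.relfinrank A (A ⊔ IntermediateField.adjoin k {x}) ≤ P.natDegree := by
  have hint : IsIntegral A x := ⟨P, hP, by rwa [← Polynomial.aeval_def]⟩
  have hle : A ≤ A ⊔ IntermediateField.adjoin k {x} := le_sup_left
  rw [IntermediateField.relfinrank_eq_finrank_of_le hle]
  have hext : IntermediateField.extendScalars hle = IntermediateField.adjoin A {x} := by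
    apply IntermediateField.restrictScalars_injective k
    rw [IntermediateField.extendScalars_restrictScalars,
      IntermediateField.restrictScalars_adjoin_eq_sup]
  rw [hext, IntermediateField.adjoin.finrank hint]
  exact ⟨minpoly.natDegree_pos hint,
    Polynomial.natDegree_le_of_dvd (minpoly.dvd A x hx) hP.ne_zero⟩

variable (k : Type*) [Field k]

theorem coeff_Jt_neg_self (d : ℕ) (hd : d ≠ 0) : (Jt k d).coeff (-(d : ℤ)) = 1 := by
  have : NeZero d := ⟨hd⟩
  rw [Jt_eq, show (-(d : ℤ)) = (d : ℤ) * (-1) by ring, qExpand_coeff_mul, coeff_jqModC_neg_one]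

theorem Jt_injective {d e : ℕ} (hd : d ≠ 0) (he : e ≠ 0) (h : Jt k d = Jt k e) : d = e := by
  have hd' : NeZero d := ⟨hd⟩
  have he' : NeZero e := ⟨he⟩
  have key : ∀ {a b : ℕ} (ha : a ≠ 0) (hb : b ≠ 0), Jt k a = Jt k b → b ∣ a := by
    intro a b ha hb hab
    have : NeZero b := ⟨hb⟩
    by_contra hnd
    have h1 := coeff_Jt_neg_self k a ha
    rw [hab, Jt_eq, qExpand_coeff_of_not_dvd b _ (by
      rw [dvd_neg, Int.natCast_dvd_natCast]; exact hnd)] at h1
    exact zero_ne_one h1
  exact Nat.dvd_antisymm (key he hd h.symm) (key hd he h)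

variable {k} in
theorem IsModPoly.eval_jp_Jt {p : ℕ} [NeZero p] {Φ : Polynomial (Polynomial ℤ)}
    (h : IsModPoly p Φ) (d : ℕ) (hd : d ≠ 0) :
    Φ.eval₂ (evalZ (Jt k d)) (Jt k (d * p)) = 0 := by
  have : NeZero d := ⟨hd⟩
  rw [Jt_eq, Jt_eq]
  exact h.eval_jp_qExpand k d

variable {k} in
theorem IsModPoly.eval_j_Jt {p : ℕ} [NeZero p] {Φ : Polynomial (Polynomial ℤ)}
    (h : IsModPoly p Φ) (d : ℕ) (hd : d ≠ 0) :
    Φ.eval₂ (evalZ (Jt k (d * p))) (Jt k d) = 0 := by
  have : NeZero d := ⟨hd⟩
  rw [Jt_eq, Jt_eq]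
  exact h.eval_j_qExpand k d

/-- Relation `Φ(u; x) = 0` in `L` gives a monic polynomial over `A ∋ u` killing `x`. -/
theorem aeval_map_evalZ {L : Type*} [Field L] [Algebra k L] (A : IntermediateField k L)
    (Φ : Polynomial (Polynomial ℤ)) (u : A) (x : L) :
    Polynomial.aeval x (Φ.map (evalZ u)) = Φ.eval₂ (evalZ (u : L)) x := by
  rw [Polynomial.aeval_def, Polynomial.eval₂_map, comp_evalZ]
  rfl

theorem eval_map_evalZ {L : Type*} [Field L] [Algebra k L] (A : IntermediateField k L)
    (Φ : Polynomial (Polynomial ℤ)) (u v : A) :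
    ((Polynomial.eval v (Φ.map (evalZ u)) : A) : L) = Φ.eval₂ (evalZ (u : L)) (v : L) := by
  rw [Polynomial.eval_map]
  have := Polynomial.hom_eval₂ Φ (evalZ u) (algebraMap A L) v
  rw [comp_evalZ] at this
  exact this

/-- **Tower step, case `p ∤ M`**: degree `≤ p + 1`. -/
theorem relfinrank_step_of_not_dvd (M p : ℕ) (hM : M ≠ 0) (hp : p.Prime) (hpM : ¬ p ∣ M)
    (H : HasModPolys k (M * p)) :
    0 < IntermediateField.relfinrank (modularFunctionFieldFullC k M)
        (modularFunctionFieldFullC k (M * p)) ∧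
      IntermediateField.relfinrank (modularFunctionFieldFullC k M)
        (modularFunctionFieldFullC k (M * p)) ≤ p + 1 := by
  have hp0 : NeZero p := ⟨hp.ne_zero⟩
  obtain ⟨-, Φ, hΦ⟩ := H p hp (Dvd.intro_left M rfl)
  rw [full_mul_prime_eq_sup k M p hM hp H, Nat.factorization_eq_zero_of_not_dvd hpM, zero_add,
    pow_one]
  set u : modularFunctionFieldFullC k M := ⟨Jt k 1, Jt_mem_full k M 1 hM (one_dvd M)⟩ with hu
  have hx : Polynomial.aeval (Jt k p) (Φ.map (evalZ u)) = 0 := by
    rw [aeval_map_evalZ]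
    have := hΦ.eval_jp_Jt (k := k) 1 one_ne_zero
    rwa [one_mul] at this
  have := relfinrank_sup_adjoin_le (modularFunctionFieldFullC k M) (Jt k p) (Φ.map (evalZ u))
    (hΦ.monic.map _) hx
  rwa [hΦ.monic.natDegree_map, hΦ.natDegree_eq] at this

/-- **Tower step, case `p ∣ M`**: degree `≤ p`. -/
theorem relfinrank_step_of_dvd (M p : ℕ) (hM : M ≠ 0) (hp : p.Prime) (hpM : p ∣ M)
    (H : HasModPolys k (M * p)) :
    0 < IntermediateField.relfinrank (modularFunctionFieldFullC k M)
        (modularFunctionFieldFullC k (M * p)) ∧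
      IntermediateField.relfinrank (modularFunctionFieldFullC k M)
        (modularFunctionFieldFullC k (M * p)) ≤ p := by
  have hp0 : NeZero p := ⟨hp.ne_zero⟩
  obtain ⟨-, Φ, hΦ⟩ := H p hp (Dvd.intro_left M rfl)
  rw [full_mul_prime_eq_sup k M p hM hp H]
  obtain ⟨a, ha⟩ : ∃ a, M.factorization p = a + 1 :=
    Nat.exists_eq_succ_of_ne_zero (hp.factorization_pos_of_dvd hM hpM).ne'
  rw [ha]
  have hpa1 : p ^ (a + 1) ∣ M := by
    rw [← ha]; exact Nat.ordProj_dvd M p
  have hpa : p ^ a ∣ M := (pow_dvd_pow p (Nat.le_succ a)).trans hpa1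
  have hpa0 : p ^ a ≠ 0 := pow_ne_zero _ hp.ne_zero
  have hpa10 : p ^ (a + 1) ≠ 0 := pow_ne_zero _ hp.ne_zero
  set A := modularFunctionFieldFullC k M with hA
  set u : A := ⟨Jt k (p ^ (a + 1)), Jt_mem_full k M _ hM hpa1⟩ with hu
  set v : A := ⟨Jt k (p ^ a), Jt_mem_full k M _ hM hpa⟩ with hv
  set x : LaurentSeries k := Jt k (p ^ (a + 1 + 1)) with hxdef
  set P : Polynomial A := Φ.map (evalZ u) with hP
  have hPm : P.Monic := hΦ.monic.map _
  -- `v` is a root of `P`
  have hroot : P.IsRoot v := by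
    rw [Polynomial.IsRoot.def]
    apply Subtype.val_injective
    rw [eval_map_evalZ]
    have := hΦ.eval_j_Jt (k := k) (p ^ a) hpa0
    rw [← pow_succ] at this
    exact this
  have hfac : (X - Polynomial.C v) * (P /ₘ (X - Polynomial.C v)) = P :=
    Polynomial.mul_divByMonic_eq_iff_isRoot.2 hroot
  set Q : Polynomial A := P /ₘ (X - Polynomial.C v) with hQ
  have hQm : Q.Monic := by
    have : ((X - Polynomial.C v) * Q).Monic := by rw [hfac]; exact hPm
    exact (Polynomial.monic_X_sub_C v).of_mul_monic_left this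
  have hQdeg : Q.natDegree = p := by
    rw [hQ, Polynomial.natDegree_divByMonic _ (Polynomial.monic_X_sub_C v),
      Polynomial.natDegree_X_sub_C, hP, hΦ.monic.natDegree_map, hΦ.natDegree_eq]
    rfl
  -- `x` is a root of `P`, hence of `Q`
  have hxP : Polynomial.aeval x P = 0 := by
    rw [hP, aeval_map_evalZ]
    have := hΦ.eval_jp_Jt (k := k) (p ^ (a + 1)) hpa10
    rw [← pow_succ] at this
    exact this
  have hxv : x - (v : LaurentSeries k) ≠ 0 := by
    rw [sub_ne_zero]
    intro h
    have := Jt_injective k (pow_ne_zero _ hp.ne_zero) hpa0 h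
    have h2 := Nat.pow_right_injective hp.two_le this
    omega
  have hxQ : Polynomial.aeval x Q = 0 := by
    have h1 : Polynomial.aeval x ((X - Polynomial.C v) * Q) = 0 := by rw [hfac]; exact hxP
    rw [map_mul, map_sub, Polynomial.aeval_X, Polynomial.aeval_C] at h1
    exact (mul_eq_zero.1 h1).resolve_left hxv
  have := relfinrank_sup_adjoin_le A x Q hQm hxQ
  rwa [hQdeg] at this

end Fermat.Agent.S28.H388

namespace Fermat.Agent.S28.H388

variable (k : Type*) [Field k]

theorem full_one_eq : modularFunctionFieldFullC k 1 = IntermediateField.adjoin k {jqModC k} := by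
  rw [full_eq_adjoin_Jt k 1 one_ne_zero]
  congr 1
  ext x
  constructor
  · rintro ⟨d, hd, rfl⟩
    rw [Nat.dvd_one.1 hd, Jt_one]
    exact rfl
  · intro hx
    exact ⟨1, dvd_rfl, by rw [Jt_one]; exact hx⟩

theorem jField_le_full (N : ℕ) : IntermediateField.adjoin k {jqModC k} ≤
    modularFunctionFieldFullC k N := by
  rw [IntermediateField.adjoin_le_iff]
  rintro x rfl
  exact jqModC_mem_full k N

/-- **Tower step**, both cases. -/
theorem relfinrank_step (M p : ℕ) (hM : M ≠ 0) (hp : p.Prime) (H : HasModPolys k (M * p)) :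
    0 < IntermediateField.relfinrank (modularFunctionFieldFullC k M)
        (modularFunctionFieldFullC k (M * p)) ∧
      IntermediateField.relfinrank (modularFunctionFieldFullC k M)
        (modularFunctionFieldFullC k (M * p)) ≤ if p ∣ M then p else p + 1 := by
  by_cases h : p ∣ M
  · rw [if_pos h]; exact relfinrank_step_of_dvd k M p hM hp h H
  · rw [if_neg h]; exact relfinrank_step_of_not_dvd k M p hM hp h H

/-- **Upper bound** `[E_N : k(j)] ≤ g N` for any `g` with the recursion of Dedekind's `ψ`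
(e.g. `g = dedekindPsi`), together with finiteness (`0 < relfinrank`). -/
theorem relfinrank_full_le (g : ℕ → ℕ) (hg1 : g 1 = 1)
    (hg_dvd : ∀ {N p : ℕ}, N ≠ 0 → p.Prime → p ∣ N → g (N * p) = p * g N)
    (hg_ndvd : ∀ {N p : ℕ}, N ≠ 0 → p.Prime → ¬ p ∣ N → g (N * p) = (p + 1) * g N)
    (N : ℕ) (hN : N ≠ 0) (H : HasModPolys k N) :
    0 < IntermediateField.relfinrank (IntermediateField.adjoin k {jqModC k})
        (modularFunctionFieldFullC k N) ∧
      IntermediateField.relfinrank (IntermediateField.adjoin k {jqModC k})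
        (modularFunctionFieldFullC k N) ≤ g N := by
  induction N using induction_on_primes with
  | zero => exact absurd rfl hN
  | one =>
    rw [full_one_eq, IntermediateField.relfinrank_self, hg1]
    exact ⟨one_pos, le_rfl⟩
  | prime_mul p a hp ih =>
    have ha : a ≠ 0 := fun h => hN (by rw [h, mul_zero])
    rw [mul_comm p a] at H ⊢
    obtain ⟨ih0, ih1⟩ := ih ha (H.of_dvd (Dvd.intro _ rfl))
    have : NeZero a := ⟨ha⟩
    have : NeZero (a * p) := ⟨mul_ne_zero ha hp.ne_zero⟩
    have htower := IntermediateField.relfinrank_mul_relfinrank (jField_le_full k a)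
      (full_degeneracyC_le k (Dvd.intro p rfl : a ∣ a * p))
    obtain ⟨hs0, hs1⟩ := relfinrank_step k a p ha hp H
    rw [← htower]
    refine ⟨Nat.mul_pos ih0 hs0, ?_⟩
    by_cases h : p ∣ a
    · rw [if_pos h] at hs1
      rw [hg_dvd ha hp h, mul_comm p]
      exact Nat.mul_le_mul ih1 hs1
    · rw [if_neg h] at hs1
      rw [hg_ndvd ha hp h, mul_comm (p + 1)]
      exact Nat.mul_le_mul ih1 hs1

end Fermat.Agent.S28.H388
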